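import Fermat.Agent.Corollaries.Mertens.Rat

/-!
# The inequality of Turán and the theorem of Hardy and Ramanujan

`∑_{n ≤ N} (ω(n) - log log N)² = O(N log log N)`, so almost all `n ≤ N` have
`|ω(n) - log log N| ≤ g(N) √(log log N)` for every `g → ∞`.
-/

set_option autoImplicit false

open Filter Topology

namespace Fermat.Agent.Cor.HR

open ArithmeticFunction

/-- the number of the prime divisors -/
noncomputable def om (n : ℕ) : ℝ := (cardDistinctFactors n : ℕ)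

/-- the number of the prime divisors, with multiplicities -/
noncomputable def Om (n : ℕ) : ℝ := (cardFactors n : ℕ)

/-- the primes `p ≤ N` -/
def PN (N : ℕ) : Finset ℕ := (Finset.Icc 1 N).filter Nat.Prime

/-- `∑_{p ≤ N} 1 / p` -/
noncomputable def AN (N : ℕ) : ℝ := ∑ p ∈ PN N, (p : ℝ)⁻¹

theorem mem_PN {N p : ℕ} : p ∈ PN N ↔ p.Prime ∧ p ≤ N := by
  rw [PN, Finset.mem_filter, Finset.mem_Icc]
  exact ⟨fun h => ⟨h.2, h.1.2⟩, fun h => ⟨⟨h.1.one_le, h.2⟩, h.1⟩⟩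

theorem om_eq_card (n : ℕ) : cardDistinctFactors n = n.primeFactors.card := by
  rw [cardDistinctFactors_apply, ← List.card_toFinset]
  rfl

theorem om_eq {N n : ℕ} (hn : n ∈ Finset.Icc 1 N) :
    om n = ∑ p ∈ PN N, if p ∣ n then (1 : ℝ) else 0 := by
  obtain ⟨h1, h2⟩ := Finset.mem_Icc.mp hn
  rw [Finset.sum_boole, om, om_eq_card]
  congr 2
  ext p
  rw [Nat.mem_primeFactors, Finset.mem_filter, mem_PN]
  constructor
  · rintro ⟨h3, h4, _⟩
    exact ⟨⟨h3, (Nat.le_of_dvd h1 h4).trans h2⟩, h4⟩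
  · rintro ⟨⟨h3, _⟩, h4⟩
    exact ⟨h3, h4, by omega⟩

theorem card_dvd (N d : ℕ) : ∑ n ∈ Finset.Icc 1 N, (if d ∣ n then (1 : ℝ) else 0) =
    ((N / d : ℕ) : ℝ) := by
  rw [Finset.sum_boole, ← Nat.Ioc_filter_dvd_card_eq_div]
  rfl

theorem card_dvd_le (N d : ℕ) : ∑ n ∈ Finset.Icc 1 N, (if d ∣ n then (1 : ℝ) else 0) ≤
    N * (d : ℝ)⁻¹ := by
  rw [card_dvd, ← div_eq_mul_inv]
  exact Nat.cast_div_le

theorem le_card_dvd (N : ℕ) {d : ℕ} (hd : 0 < d) : N * (d : ℝ)⁻¹ - 1 ≤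
    ∑ n ∈ Finset.Icc 1 N, (if d ∣ n then (1 : ℝ) else 0) := by
  have hd0 : (0 : ℝ) < d := by exact_mod_cast hd
  rw [card_dvd, ← div_eq_mul_inv, sub_le_iff_le_add, div_le_iff₀ hd0]
  have h1 := Nat.lt_div_mul_add (a := N) hd
  have h2 : (N : ℝ) < ((N / d : ℕ) : ℝ) * d + d := by exact_mod_cast h1
  nlinarith

theorem card_PN_le (N : ℕ) : ((PN N).card : ℝ) ≤ N := by
  have h1 : (PN N).card ≤ (Finset.Icc 1 N).card := Finset.card_filter_le _ _
  rw [Nat.card_Icc, Nat.add_sub_cancel] at h1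
  exact_mod_cast h1

/-- `∑ ω(n) ≥ N ∑ 1 / p - N` -/
theorem le_sum_om (N : ℕ) : N * AN N - N ≤ ∑ n ∈ Finset.Icc 1 N, om n := by
  have h1 : ∑ n ∈ Finset.Icc 1 N, om n =
      ∑ p ∈ PN N, ∑ n ∈ Finset.Icc 1 N, if p ∣ n then (1 : ℝ) else 0 := by
    rw [Finset.sum_comm]
    exact Finset.sum_congr rfl fun n hn => om_eq hn
  rw [h1]
  have h2 : ∑ p ∈ PN N, (N * (p : ℝ)⁻¹ - 1) ≤
      ∑ p ∈ PN N, ∑ n ∈ Finset.Icc 1 N, if p ∣ n then (1 : ℝ) else 0 :=
    Finset.sum_le_sum fun p hp => le_card_dvd N (mem_PN.mp hp).1.pos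
  refine le_trans ?_ h2
  rw [Finset.sum_sub_distrib, ← Finset.mul_sum, Finset.sum_const, nsmul_eq_mul, mul_one, AN]
  linarith [card_PN_le N]

/-- `∑ ω(n)² ≤ N (∑ 1 / p)² + N ∑ 1 / p` -/
theorem sum_om_sq_le (N : ℕ) : ∑ n ∈ Finset.Icc 1 N, om n ^ 2 ≤ N * AN N ^ 2 + N * AN N := by
  have h1 : ∑ n ∈ Finset.Icc 1 N, om n ^ 2 = ∑ p ∈ PN N, ∑ q ∈ PN N, ∑ n ∈ Finset.Icc 1 N,
      (if p ∣ n then (1 : ℝ) else 0) * (if q ∣ n then (1 : ℝ) else 0) := by
    have h2 : ∀ n ∈ Finset.Icc 1 N, om n ^ 2 = ∑ p ∈ PN N, ∑ q ∈ PN N,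
        (if p ∣ n then (1 : ℝ) else 0) * (if q ∣ n then (1 : ℝ) else 0) := by
      intro n hn
      rw [om_eq hn, sq, Finset.sum_mul_sum]
    rw [Finset.sum_congr rfl h2, Finset.sum_comm]
    refine Finset.sum_congr rfl fun p _ => ?_
    rw [Finset.sum_comm]
  have h3 : ∀ p ∈ PN N, ∀ q ∈ PN N, ∑ n ∈ Finset.Icc 1 N,
      (if p ∣ n then (1 : ℝ) else 0) * (if q ∣ n then (1 : ℝ) else 0) ≤
      N * ((p : ℝ)⁻¹ * (q : ℝ)⁻¹) + if p = q then N * (p : ℝ)⁻¹ else 0 := by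
    intro p hp q hq
    by_cases hpq : p = q
    · subst hpq
      rw [if_pos rfl]
      have h4 : ∑ n ∈ Finset.Icc 1 N, (if p ∣ n then (1 : ℝ) else 0) *
          (if p ∣ n then (1 : ℝ) else 0) = ∑ n ∈ Finset.Icc 1 N, if p ∣ n then (1 : ℝ) else 0 := by
        refine Finset.sum_congr rfl fun n _ => ?_
        split_ifs <;> norm_num
      rw [h4]
      have h5 : (0 : ℝ) ≤ N * ((p : ℝ)⁻¹ * (p : ℝ)⁻¹) := by positivity
      linarith [card_dvd_le N p]
    · rw [if_neg hpq, add_zero]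
      have hc : p.Coprime q := (Nat.coprime_primes (mem_PN.mp hp).1 (mem_PN.mp hq).1).mpr hpq
      have h4 : ∑ n ∈ Finset.Icc 1 N, (if p ∣ n then (1 : ℝ) else 0) *
          (if q ∣ n then (1 : ℝ) else 0) ≤
          ∑ n ∈ Finset.Icc 1 N, if p * q ∣ n then (1 : ℝ) else 0 := by
        refine Finset.sum_le_sum fun n _ => ?_
        by_cases h5 : p ∣ n
        · by_cases h6 : q ∣ n
          · rw [if_pos h5, if_pos h6, if_pos (hc.mul_dvd_of_dvd_of_dvd h5 h6), one_mul]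
          · rw [if_neg h6, mul_zero]
            split_ifs <;> norm_num
        · rw [if_neg h5, zero_mul]
          split_ifs <;> norm_num
      refine h4.trans ((card_dvd_le N (p * q)).trans (le_of_eq ?_))
      rw [Nat.cast_mul, mul_inv]
  rw [h1]
  refine (Finset.sum_le_sum fun p hp => Finset.sum_le_sum fun q hq => h3 p hp q hq).trans
    (le_of_eq ?_)
  have h4 : ∀ p ∈ PN N, ∑ q ∈ PN N, (N * ((p : ℝ)⁻¹ * (q : ℝ)⁻¹) +
      if p = q then N * (p : ℝ)⁻¹ else 0) = N * ((p : ℝ)⁻¹ * AN N) + N * (p : ℝ)⁻¹ := by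
    intro p hp
    rw [Finset.sum_add_distrib, ← Finset.mul_sum, ← Finset.mul_sum, Finset.sum_ite_eq, if_pos hp, AN]
  rw [Finset.sum_congr rfl h4, Finset.sum_add_distrib, ← Finset.mul_sum, ← Finset.mul_sum,
    ← Finset.sum_mul]
  change (N : ℝ) * (AN N * AN N) + N * AN N = _
  ring

/-- **Turán's inequality** -/
theorem turan_ineq (N : ℕ) {c : ℝ} (hc : 0 ≤ c) :
    ∑ n ∈ Finset.Icc 1 N, (om n - c) ^ 2 ≤ N * ((AN N - c) ^ 2 + AN N + 2 * c) := by
  have h1 : ∑ n ∈ Finset.Icc 1 N, (om n - c) ^ 2 =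
      (∑ n ∈ Finset.Icc 1 N, om n ^ 2) - 2 * c * (∑ n ∈ Finset.Icc 1 N, om n) + N * c ^ 2 := by
    have h2 : ∀ n ∈ Finset.Icc 1 N, (om n - c) ^ 2 = om n ^ 2 - 2 * c * om n + c ^ 2 :=
      fun n _ => by ring
    rw [Finset.sum_congr rfl h2, Finset.sum_add_distrib, Finset.sum_sub_distrib, ← Finset.mul_sum,
      Finset.sum_const, Nat.card_Icc, Nat.add_sub_cancel, nsmul_eq_mul]
  rw [h1]
  have h2 := sum_om_sq_le N
  have h3 := le_sum_om N
  nlinarith [mul_le_mul_of_nonneg_left h3 (show (0 : ℝ) ≤ 2 * c by linarith)]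

/-- `log log N` -/
noncomputable def LL (N : ℕ) : ℝ := Real.log (Real.log N)

theorem tendsto_LL : Tendsto LL atTop atTop :=
  Real.tendsto_log_atTop.comp (Real.tendsto_log_atTop.comp tendsto_natCast_atTop_atTop)

theorem tendsto_AN_sub : Tendsto (fun N : ℕ => AN N - LL N) atTop (𝓝 Mert.meisselMertens) := by
  refine (Mert.tendsto_sum_inv.comp tendsto_natCast_atTop_atTop).congr fun N => ?_
  simp only [Function.comp_apply, Nat.floor_natCast]
  rfl

/-- the constant of Turán's theorem -/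
noncomputable def KT : ℝ := (|Mert.meisselMertens| + 1) ^ 2 + (|Mert.meisselMertens| + 1) + 3

theorem KT_pos : 0 < KT := by
  unfold KT
  positivity

theorem eventually_turan : ∀ᶠ N : ℕ in atTop,
    ∑ n ∈ Finset.Icc 1 N, (om n - LL N) ^ 2 ≤ KT * (N * LL N) := by
  have h1 := (tendsto_AN_sub.abs).eventually (Iio_mem_nhds (lt_add_one |Mert.meisselMertens|))
  filter_upwards [h1, tendsto_LL.eventually_ge_atTop 1] with N h2 h3
  have h2 : |AN N - LL N| < |Mert.meisselMertens| + 1 := h2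
  refine (turan_ineq N (by linarith)).trans ?_
  have h4 : (AN N - LL N) ^ 2 ≤ (|Mert.meisselMertens| + 1) ^ 2 := by
    rw [← sq_abs]
    exact pow_le_pow_left₀ (abs_nonneg _) h2.le 2
  have h5 : AN N ≤ LL N + (|Mert.meisselMertens| + 1) := by
    have := (abs_le.mp h2.le).2
    linarith
  have h6 : (AN N - LL N) ^ 2 + AN N + 2 * LL N ≤ KT * LL N := by
    have h7 : 0 ≤ (|Mert.meisselMertens| + 1) ^ 2 + (|Mert.meisselMertens| + 1) := by positivity
    have h8 : (|Mert.meisselMertens| + 1) ^ 2 + (|Mert.meisselMertens| + 1) ≤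
        ((|Mert.meisselMertens| + 1) ^ 2 + (|Mert.meisselMertens| + 1)) * LL N :=
      le_mul_of_one_le_right h7 h3
    unfold KT
    linarith
  calc (N : ℝ) * ((AN N - LL N) ^ 2 + AN N + 2 * LL N) ≤ N * (KT * LL N) := by gcongr
    _ = _ := by ring

/-- **Turán's theorem (1934)**: `∑_{n ≤ N} (ω(n) - log log N)² = O(N log log N)`. -/
theorem turan : (fun N : ℕ => ∑ n ∈ Finset.Icc 1 N,
    (((cardDistinctFactors n : ℕ) : ℝ) - Real.log (Real.log N)) ^ 2) =O[atTop]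
      fun N : ℕ => (N : ℝ) * Real.log (Real.log N) := by
  refine Asymptotics.IsBigO.of_bound KT ?_
  filter_upwards [eventually_turan, tendsto_LL.eventually_ge_atTop 1] with N h1 h2
  change ‖∑ n ∈ Finset.Icc 1 N, (om n - LL N) ^ 2‖ ≤ KT * ‖(N : ℝ) * LL N‖
  rw [Real.norm_of_nonneg (Finset.sum_nonneg fun _ _ => sq_nonneg _),
    Real.norm_of_nonneg (mul_nonneg (Nat.cast_nonneg N) (zero_le_one.trans h2))]
  exact h1

/-- **The theorem of Hardy and Ramanujan (1917)** for `ω` -/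
theorem tendsto_om {g : ℕ → ℝ} (hg : Tendsto g atTop atTop) : Tendsto (fun N : ℕ =>
    (((Finset.Icc 1 N).filter fun n => g N * √(LL N) < |om n - LL N|).card : ℝ) / N) atTop
      (𝓝 0) := by
  have h1 : Tendsto (fun N : ℕ => KT * ((g N) ^ 2)⁻¹) atTop (𝓝 0) := by
    have h2 : Tendsto (fun N : ℕ => (g N) ^ 2) atTop atTop :=
      (tendsto_pow_atTop two_ne_zero).comp hg
    have := h2.inv_tendsto_atTop.const_mul KT
    rwa [mul_zero] at this
  refine squeeze_zero' (Eventually.of_forall fun N => by positivity) ?_ h1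
  filter_upwards [eventually_turan, tendsto_LL.eventually_ge_atTop 1, hg.eventually_gt_atTop 0,
    eventually_gt_atTop 0] with N h2 h3 h4 h5
  have hN : (0 : ℝ) < N := by exact_mod_cast h5
  have hL : 0 < LL N := by linarith
  set s := (Finset.Icc 1 N).filter fun n => g N * √(LL N) < |om n - LL N| with hs
  have h6 : (s.card : ℝ) * ((g N) ^ 2 * LL N) ≤ KT * (N * LL N) := by
    refine le_trans ?_ h2
    calc (s.card : ℝ) * ((g N) ^ 2 * LL N) = ∑ n ∈ s, ((g N) ^ 2 * LL N) := by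
          rw [Finset.sum_const, nsmul_eq_mul]
      _ ≤ ∑ n ∈ s, (om n - LL N) ^ 2 := by
          refine Finset.sum_le_sum fun n hn => ?_
          have h7 := (Finset.mem_filter.mp hn).2
          have h8 : (g N * √(LL N)) ^ 2 ≤ |om n - LL N| ^ 2 :=
            pow_le_pow_left₀ (by positivity) h7.le 2
          rwa [mul_pow, Real.sq_sqrt hL.le, sq_abs] at h8
      _ ≤ ∑ n ∈ Finset.Icc 1 N, (om n - LL N) ^ 2 :=
          Finset.sum_le_sum_of_subset_of_nonneg (Finset.filter_subset _ _)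
            fun _ _ _ => sq_nonneg _
  rw [div_le_iff₀ hN]
  have h7 : (s.card : ℝ) * (g N) ^ 2 ≤ KT * N := by
    refine le_of_mul_le_mul_right ?_ hL
    calc (s.card : ℝ) * (g N) ^ 2 * LL N = (s.card : ℝ) * ((g N) ^ 2 * LL N) := by ring
      _ ≤ KT * (N * LL N) := h6
      _ = KT * N * LL N := by ring
  calc (s.card : ℝ) = (s.card : ℝ) * (g N) ^ 2 * ((g N) ^ 2)⁻¹ := by
        field_simp
    _ ≤ KT * N * ((g N) ^ 2)⁻¹ := by gcongr
    _ = KT * ((g N) ^ 2)⁻¹ * N := by ring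

/-! ### `Ω` -/

/-- `v_p(N!) ≤ N / (p - 1)` -/
theorem padicValNat_factorial_le {p : ℕ} (hp : p.Prime) (N : ℕ) :
    ((N.factorial.factorization p : ℕ) : ℝ) ≤ N * ((p : ℝ) - 1)⁻¹ := by
  have := Fact.mk hp
  have h1 := sub_one_mul_padicValNat_factorial (p := p) N
  have h2 : (p - 1) * padicValNat p N.factorial ≤ N := by
    rw [h1]
    exact Nat.sub_le _ _
  have h3 : ((p : ℝ) - 1) * (padicValNat p N.factorial : ℝ) ≤ N := by
    have : ((p - 1 : ℕ) : ℝ) = (p : ℝ) - 1 := by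
      rw [Nat.cast_sub hp.one_le, Nat.cast_one]
    rw [← this]
    exact_mod_cast h2
  have hp1 : (0 : ℝ) < (p : ℝ) - 1 := by
    have : (1 : ℝ) < p := by exact_mod_cast hp.one_lt
    linarith
  rw [Nat.factorization_def _ hp, ← div_eq_mul_inv, le_div_iff₀ hp1, mul_comm]
  exact h3

theorem sum_Om_eq (N : ℕ) : ∑ n ∈ Finset.Icc 1 N, Om n =
    ∑ p ∈ PN N, ((N.factorial.factorization p : ℕ) : ℝ) := by
  have h1 : ∀ N : ℕ, ∑ n ∈ Finset.Icc 1 N, cardFactors n = cardFactors N.factorial := by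
    intro N
    induction N with
    | zero => simp
    | succ N ih =>
      rw [Finset.sum_Icc_succ_top (by omega), ih, Nat.factorial_succ,
        cardFactors_mul (Nat.succ_ne_zero N) N.factorial_ne_zero, add_comm]
  have h2 : cardFactors N.factorial = ∑ p ∈ PN N, N.factorial.factorization p := by
    rw [cardFactors_eq_sum_factorization, Finsupp.sum]
    refine Finset.sum_subset (fun p hp => ?_) fun p _ hp => ?_
    · rw [Nat.support_factorization, Nat.mem_primeFactors] at hp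
      exact mem_PN.mpr ⟨hp.1, (Nat.Prime.dvd_factorial hp.1).mp hp.2.1⟩
    · exact Finsupp.notMem_support_iff.mp hp
  have h3 := (h1 N).trans h2
  unfold Om
  exact_mod_cast h3

/-- `∑_{p ≤ N} (1 / (p - 1) - 1 / p) ≤ 1` -/
theorem sum_diff_le (N : ℕ) : ∑ p ∈ PN N, (((p : ℝ) - 1)⁻¹ - (p : ℝ)⁻¹) ≤ 1 := by
  have h1 : ∑ p ∈ PN N, (((p : ℝ) - 1)⁻¹ - (p : ℝ)⁻¹) ≤
      ∑ m ∈ Finset.Icc 2 (N + 1), (((m : ℝ) - 1)⁻¹ - (m : ℝ)⁻¹) := by
    refine Finset.sum_le_sum_of_subset_of_nonneg (fun p hp => ?_) fun m hm _ => ?_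
    · have := mem_PN.mp hp
      exact Finset.mem_Icc.mpr ⟨this.1.two_le, this.2.trans (Nat.le_succ N)⟩
    · have h2 : (2 : ℝ) ≤ m := by exact_mod_cast (Finset.mem_Icc.mp hm).1
      rw [sub_nonneg]
      exact inv_anti₀ (by linarith) (by linarith)
  have h2 : ∀ N : ℕ, ∑ m ∈ Finset.Icc 2 (N + 1), (((m : ℝ) - 1)⁻¹ - (m : ℝ)⁻¹) =
      1 - ((N + 1 : ℕ) : ℝ)⁻¹ := by
    intro N
    induction N with
    | zero => simp
    | succ N ih =>
      rw [Finset.sum_Icc_succ_top (by omega), ih]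
      push_cast
      ring
  rw [h2] at h1
  have h3 : (0 : ℝ) ≤ ((N + 1 : ℕ) : ℝ)⁻¹ := by positivity
  linarith

/-- `∑_{n ≤ N} (Ω(n) - ω(n)) ≤ 2 N` -/
theorem sum_Om_sub_om_le (N : ℕ) : ∑ n ∈ Finset.Icc 1 N, (Om n - om n) ≤ 2 * N := by
  rw [Finset.sum_sub_distrib, sum_Om_eq]
  have h1 : ∑ p ∈ PN N, ((N.factorial.factorization p : ℕ) : ℝ) ≤
      ∑ p ∈ PN N, N * ((p : ℝ) - 1)⁻¹ :=
    Finset.sum_le_sum fun p hp => padicValNat_factorial_le (mem_PN.mp hp).1 N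
  have h2 := le_sum_om N
  have h3 : ∑ p ∈ PN N, N * ((p : ℝ) - 1)⁻¹ - N * AN N =
      N * ∑ p ∈ PN N, (((p : ℝ) - 1)⁻¹ - (p : ℝ)⁻¹) := by
    rw [AN, Finset.mul_sum, Finset.mul_sum, ← Finset.sum_sub_distrib]
    exact Finset.sum_congr rfl fun p _ => by ring
  have h4 : (N : ℝ) * ∑ p ∈ PN N, (((p : ℝ) - 1)⁻¹ - (p : ℝ)⁻¹) ≤ N * 1 := by
    gcongr
    exact sum_diff_le N
  linarith

theorem om_le_Om (n : ℕ) : om n ≤ Om n := by
  unfold om Om
  rw [cardDistinctFactors_apply, cardFactors_apply]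
  exact_mod_cast List.Sublist.length_le (List.dedup_sublist _)

/-- **The theorem of Hardy and Ramanujan (1917)** for `Ω` -/
theorem tendsto_Om {g : ℕ → ℝ} (hg : Tendsto g atTop atTop) : Tendsto (fun N : ℕ =>
    (((Finset.Icc 1 N).filter fun n => g N * √(LL N) < |Om n - LL N|).card : ℝ) / N) atTop
      (𝓝 0) := by
  have hg2 : Tendsto (fun N => g N / 2) atTop atTop := hg.atTop_div_const (by norm_num)
  have h1 := tendsto_om hg2
  have h2 : Tendsto (fun N : ℕ => 2 * (g N / 2)⁻¹) atTop (𝓝 0) := by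
    have := hg2.inv_tendsto_atTop.const_mul 2
    rwa [mul_zero] at this
  have h3 := h1.add h2
  rw [add_zero] at h3
  refine squeeze_zero' (Eventually.of_forall fun N => by positivity) ?_ h3
  filter_upwards [tendsto_LL.eventually_ge_atTop 1, hg.eventually_gt_atTop 0,
    eventually_gt_atTop 0] with N hL1 hg0 hN1
  have hN : (0 : ℝ) < N := by exact_mod_cast hN1
  have hs1 : 1 ≤ √(LL N) := by
    rw [Real.one_le_sqrt]
    exact hL1
  set s := (Finset.Icc 1 N).filter fun n => g N * √(LL N) < |Om n - LL N| with hs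
  set s1 := (Finset.Icc 1 N).filter fun n => g N / 2 * √(LL N) < |om n - LL N| with hs1'
  set s2 := (Finset.Icc 1 N).filter fun n => g N / 2 ≤ Om n - om n with hs2
  have hsub : s ⊆ s1 ∪ s2 := by
    intro n hn
    rw [Finset.mem_union]
    by_contra h
    rw [not_or] at h
    obtain ⟨hn1, hn2⟩ := Finset.mem_filter.mp hn
    have h4 : |om n - LL N| ≤ g N / 2 * √(LL N) := by
      by_contra h5
      exact h.1 (Finset.mem_filter.mpr ⟨hn1, not_le.mp h5⟩)
    have h5 : Om n - om n < g N / 2 := by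
      by_contra h6
      exact h.2 (Finset.mem_filter.mpr ⟨hn1, not_lt.mp h6⟩)
    have h6 : |Om n - LL N| ≤ |om n - LL N| + (Om n - om n) := by
      have h7 := om_le_Om n
      have e : Om n - LL N = (om n - LL N) + (Om n - om n) := by ring
      rw [e]
      refine (abs_add_le _ _).trans ?_
      rw [abs_of_nonneg (show 0 ≤ Om n - om n by linarith)]
    have h7 : g N / 2 ≤ g N / 2 * √(LL N) := le_mul_of_one_le_right (by positivity) hs1
    linarith
  have h4 : (s.card : ℝ) ≤ s1.card + s2.card := by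
    exact_mod_cast (Finset.card_le_card hsub).trans (Finset.card_union_le _ _)
  have h5 : (s2.card : ℝ) * (g N / 2) ≤ 2 * N := by
    refine le_trans ?_ (sum_Om_sub_om_le N)
    calc (s2.card : ℝ) * (g N / 2) = ∑ n ∈ s2, g N / 2 := by
          rw [Finset.sum_const, nsmul_eq_mul]
      _ ≤ ∑ n ∈ s2, (Om n - om n) := Finset.sum_le_sum fun n hn => (Finset.mem_filter.mp hn).2
      _ ≤ _ := Finset.sum_le_sum_of_subset_of_nonneg (Finset.filter_subset _ _)
            fun n _ _ => sub_nonneg.mpr (om_le_Om n)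
  have h6 : (s2.card : ℝ) ≤ 2 * (g N / 2)⁻¹ * N := by
    calc (s2.card : ℝ) = (s2.card : ℝ) * (g N / 2) * (g N / 2)⁻¹ := by
          field_simp
      _ ≤ 2 * N * (g N / 2)⁻¹ := by gcongr
      _ = _ := by ring
  calc (s.card : ℝ) / N ≤ (s1.card + 2 * (g N / 2)⁻¹ * N) / N := by
        gcongr
        linarith
    _ = s1.card / N + 2 * (g N / 2)⁻¹ := by
        field_simp

end Fermat.Agent.Cor.HR
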