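import Fermat.Agent.Corollaries.HR.Table

/-!
# The normal order of the number of divisors

`log d(n) = (log 2 + o(1)) log log n` for almost all `n`.
-/

set_option autoImplicit false

open Filter Topology

namespace Fermat.Agent.Cor.HR

open ArithmeticFunction

/-- `2 ^ ω(n) ≤ d(n)` -/
theorem two_pow_om_le {n : ℕ} (hn : n ≠ 0) : 2 ^ cardDistinctFactors n ≤ n.divisors.card := by
  rw [om_eq_card, Nat.card_divisors hn, ← Finset.prod_const]
  refine Finset.prod_le_prod' fun p hp => ?_
  have := (Nat.mem_primeFactors.mp hp)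
  have h1 : 0 < n.factorization p := this.1.factorization_pos_of_dvd hn this.2.1
  omega

/-- `d(n) ≤ 2 ^ Ω(n)` -/
theorem card_divisors_le {n : ℕ} (hn : n ≠ 0) : n.divisors.card ≤ 2 ^ cardFactors n := by
  rw [cardFactors_eq_sum_factorization, Finsupp.sum, ← Finset.prod_pow_eq_pow_sum,
    Nat.card_divisors hn, Nat.support_factorization]
  refine Finset.prod_le_prod' fun p _ => ?_
  exact Nat.lt_two_pow_self

/-- `log d(n) / log 2` -/
noncomputable def dv (n : ℕ) : ℝ := Real.log n.divisors.card / Real.log 2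

theorem om_le_dv {n : ℕ} (hn : n ≠ 0) : om n ≤ dv n := by
  have h2 : 0 < Real.log 2 := Real.log_pos (by norm_num)
  rw [dv, le_div_iff₀ h2, om, ← Real.log_pow]
  exact Real.log_le_log (by positivity) (by exact_mod_cast two_pow_om_le hn)

theorem dv_le_Om {n : ℕ} (hn : n ≠ 0) : dv n ≤ Om n := by
  have h2 : 0 < Real.log 2 := Real.log_pos (by norm_num)
  have h3 : (0 : ℝ) < n.divisors.card := by
    exact_mod_cast Finset.card_pos.mpr ⟨n, Nat.mem_divisors_self n hn⟩
  rw [dv, div_le_iff₀ h2, Om, ← Real.log_pow]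
  exact Real.log_le_log h3 (by exact_mod_cast card_divisors_le hn)

/-- a function between `ω` and `Ω` -/
theorem card_between_le {h : ℕ → ℝ} (h1 : ∀ n, n ≠ 0 → om n ≤ h n) (h2 : ∀ n, n ≠ 0 → h n ≤ Om n)
    (δ L : ℕ → ℝ) (N : ℕ) : ((Finset.Icc 1 N).filter fun n => δ n < |h n - L n|).card ≤
      ((Finset.Icc 1 N).filter fun n => δ n < |om n - L n|).card +
        ((Finset.Icc 1 N).filter fun n => δ n < |Om n - L n|).card := by
  refine (Finset.card_le_card fun n hn => ?_).trans (Finset.card_union_le _ _)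
  obtain ⟨hn1, hn2⟩ := Finset.mem_filter.mp hn
  have hn0 : n ≠ 0 := by
    have := (Finset.mem_Icc.mp hn1).1
    omega
  rw [Finset.mem_union, Finset.mem_filter, Finset.mem_filter]
  rcases le_total 0 (h n - L n) with h3 | h3
  · right
    refine ⟨hn1, ?_⟩
    rw [abs_of_nonneg h3] at hn2
    have := h2 n hn0
    exact lt_of_lt_of_le (by linarith) (le_abs_self _)
  · left
    refine ⟨hn1, ?_⟩
    rw [abs_of_nonpos h3] at hn2
    have := h1 n hn0
    exact lt_of_lt_of_le (by linarith) (neg_le_abs _)

/-- the theorem of Hardy and Ramanujan for `log d(n) / log 2` -/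
theorem tendsto_dv {g : ℕ → ℝ} (hg : Tendsto g atTop atTop) : Tendsto (fun N : ℕ =>
    (((Finset.Icc 1 N).filter fun n => g N * √(LL N) < |dv n - LL N|).card : ℝ) / N) atTop
      (𝓝 0) := by
  have h1 := (tendsto_om hg).add (tendsto_Om hg)
  rw [add_zero] at h1
  refine squeeze_zero (fun N => by positivity) (fun N => ?_) h1
  rw [← add_div]
  refine div_le_div_of_nonneg_right ?_ (Nat.cast_nonneg N)
  exact_mod_cast card_between_le (fun n => om_le_dv) (fun n => dv_le_Om)
    (fun _ => g N * √(LL N)) (fun _ => LL N) N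

/-- **Hardy and Ramanujan (1917)**: the normal order of `log d(n)` is `log 2 · log log n`: for
almost all `n`, `d(n) = (log n) ^ (log 2 + o(1))`. -/
theorem normal_order_card_divisors {ε : ℝ} (hε : 0 < ε) : Tendsto (fun N : ℕ =>
    (((Finset.Icc 1 N).filter fun n : ℕ => ε * Real.log (Real.log n) <
      |Real.log n.divisors.card - Real.log 2 * Real.log (Real.log n)|).card : ℝ) / N) atTop
      (𝓝 0) := by
  have h2 : 0 < Real.log 2 := Real.log_pos (by norm_num)
  refine (normal_order (h := dv) tendsto_dv (div_pos hε h2)).congr fun N => ?_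
  congr 3
  refine Finset.filter_congr fun n _ => ?_
  have e : Real.log n.divisors.card - Real.log 2 * Real.log (Real.log n) =
      Real.log 2 * (dv n - LL n) := by
    rw [dv, LL]
    field_simp
  rw [e, abs_mul, abs_of_pos h2, div_mul_eq_mul_div, div_lt_iff₀ h2, mul_comm |_| _]
  rfl

end Fermat.Agent.Cor.HR
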