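import Fermat.Agent.Corollaries.HR.Turan

/-!
# The normal order of `ω` and `Ω`, and Erdős' multiplication table theorem

Almost all `n` have `|ω(n) - log log n| ≤ ε log log n`, the same for `Ω`;
`#{a b : a, b ≤ N} = o(N²)`.
-/

set_option autoImplicit false

open Filter Topology

namespace Fermat.Agent.Cor.HR

open ArithmeticFunction

theorem tendsto_sqrt_LL {ε : ℝ} (hε : 0 < ε) : Tendsto (fun N : ℕ => ε * √(LL N)) atTop atTop :=
  (Real.tendsto_sqrt_atTop.comp tendsto_LL).const_mul_atTop hε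

/-- `|h(n) - log log N| ≤ ε log log N` for almost all `n ≤ N` -/
theorem tendsto_eps {h : ℕ → ℝ} (H : ∀ {g : ℕ → ℝ}, Tendsto g atTop atTop → Tendsto (fun N : ℕ =>
    (((Finset.Icc 1 N).filter fun n => g N * √(LL N) < |h n - LL N|).card : ℝ) / N) atTop
      (𝓝 0)) {ε : ℝ} (hε : 0 < ε) : Tendsto (fun N : ℕ =>
    (((Finset.Icc 1 N).filter fun n => ε * LL N < |h n - LL N|).card : ℝ) / N) atTop
      (𝓝 0) := by
  refine (H (tendsto_sqrt_LL hε)).congr' ?_
  filter_upwards [tendsto_LL.eventually_ge_atTop 0] with N hN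
  have e : ε * √(LL N) * √(LL N) = ε * LL N := by
    rw [mul_assoc, Real.mul_self_sqrt hN]
  simp only [e]

/-- **The normal order**: `|h(n) - log log n| ≤ ε log log n` for almost all `n` -/
theorem normal_order {h : ℕ → ℝ} (H : ∀ {g : ℕ → ℝ}, Tendsto g atTop atTop → Tendsto (fun N : ℕ =>
    (((Finset.Icc 1 N).filter fun n => g N * √(LL N) < |h n - LL N|).card : ℝ) / N) atTop
      (𝓝 0)) {ε : ℝ} (hε : 0 < ε) : Tendsto (fun N : ℕ =>
    (((Finset.Icc 1 N).filter fun n => ε * LL n < |h n - LL n|).card : ℝ) / N) atTop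
      (𝓝 0) := by
  have h1 := tendsto_eps H (half_pos hε)
  have h2 : Tendsto (fun N : ℕ => ((Nat.sqrt N : ℕ) : ℝ) / N) atTop (𝓝 0) := by
    have h3 : Tendsto (fun N : ℕ => (√(N : ℝ))⁻¹) atTop (𝓝 0) :=
      (Real.tendsto_sqrt_atTop.comp tendsto_natCast_atTop_atTop).inv_tendsto_atTop
    refine squeeze_zero' (Eventually.of_forall fun N => by positivity) ?_ h3
    filter_upwards [eventually_gt_atTop 0] with N hN
    have hN0 : (0 : ℝ) < N := by exact_mod_cast hN
    calc ((Nat.sqrt N : ℕ) : ℝ) / N ≤ √(N : ℝ) / N := by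
          gcongr
          exact Real.nat_sqrt_le_real_sqrt
      _ = (√(N : ℝ))⁻¹ := Real.sqrt_div_self
  have h3 := h1.add h2
  rw [add_zero] at h3
  refine squeeze_zero' (Eventually.of_forall fun N => by positivity) ?_ h3
  filter_upwards [tendsto_LL.eventually_ge_atTop (2 * (1 + ε) / ε), eventually_ge_atTop 16]
    with N hL hN16
  have hN0 : (0 : ℝ) < N := by exact_mod_cast (by omega : 0 < N)
  rw [← add_div]
  refine div_le_div_of_nonneg_right ?_ hN0.le
  set s := (Finset.Icc 1 N).filter fun n => ε * LL n < |h n - LL n| with hs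
  set s1 := (Finset.Icc 1 N).filter fun n => ε / 2 * LL N < |h n - LL N| with hs1
  have hsub : s ⊆ s1 ∪ Finset.Icc 1 (Nat.sqrt N) := by
    intro n hn
    rw [Finset.mem_union]
    obtain ⟨hn1, hn2⟩ := Finset.mem_filter.mp hn
    obtain ⟨hn3, hn4⟩ := Finset.mem_Icc.mp hn1
    by_cases h4 : n ≤ Nat.sqrt N
    · exact Or.inr (Finset.mem_Icc.mpr ⟨hn3, h4⟩)
    left
    refine Finset.mem_filter.mpr ⟨hn1, ?_⟩
    have h5 : N < n * n := Nat.sqrt_lt.mp (not_le.mp h4)
    have hn0 : (0 : ℝ) < n := by exact_mod_cast hn3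
    have h6 : Real.log N < 2 * Real.log n := by
      have : Real.log N < Real.log (n * n) :=
        Real.log_lt_log hN0 (by exact_mod_cast h5)
      rw [Real.log_mul hn0.ne' hn0.ne'] at this
      linarith
    have hlN : 1 < Real.log N := by
      rw [Real.lt_log_iff_exp_lt hN0]
      have h16 : (16 : ℝ) ≤ N := by exact_mod_cast hN16
      have := Real.exp_one_lt_d9
      linarith
    have hln : 0 < Real.log n := by linarith
    have h7 : LL N - 1 ≤ LL n := by
      have h8 : LL N ≤ Real.log (2 * Real.log n) := Real.log_le_log (by linarith) h6.le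
      rw [Real.log_mul (by norm_num) hln.ne'] at h8
      have h9 := Real.log_two_lt_d9
      unfold LL at *
      linarith
    have h8 : LL n ≤ LL N :=
      Real.log_le_log hln (Real.log_le_log hn0 (by exact_mod_cast hn4))
    have h9 : |h n - LL n| ≤ |h n - LL N| + 1 := by
      have e : h n - LL n = (h n - LL N) + (LL N - LL n) := by ring
      rw [e]
      refine (abs_add_le _ _).trans ?_
      rw [abs_of_nonneg (show 0 ≤ LL N - LL n by linarith)]
      linarith
    have h10 : ε * (LL N - 1) ≤ ε * LL n := by gcongr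
    rw [div_le_iff₀ hε] at hL
    nlinarith
  have h4 := (Finset.card_le_card hsub).trans (Finset.card_union_le _ _)
  rw [Nat.card_Icc, Nat.add_sub_cancel] at h4
  exact_mod_cast h4

/-- **Hardy and Ramanujan (1917)**: the normal order of `ω(n)` is `log log n`. -/
theorem hardy_ramanujan {ε : ℝ} (hε : 0 < ε) : Tendsto (fun N : ℕ =>
    (((Finset.Icc 1 N).filter fun n : ℕ => ε * Real.log (Real.log n) <
      |((cardDistinctFactors n : ℕ) : ℝ) - Real.log (Real.log n)|).card : ℝ) / N) atTop (𝓝 0) :=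
  normal_order (h := om) tendsto_om hε

/-- **Hardy and Ramanujan (1917)**: the normal order of `Ω(n)` is `log log n`. -/
theorem hardy_ramanujan_Omega {ε : ℝ} (hε : 0 < ε) : Tendsto (fun N : ℕ =>
    (((Finset.Icc 1 N).filter fun n : ℕ => ε * Real.log (Real.log n) <
      |((cardFactors n : ℕ) : ℝ) - Real.log (Real.log n)|).card : ℝ) / N) atTop (𝓝 0) :=
  normal_order (h := Om) tendsto_Om hε

/-- **The multiplication table theorem (Erdős 1955)**: `#{a b : 1 ≤ a, b ≤ N} = o(N²)`. -/
theorem multiplication_table : Tendsto (fun N : ℕ =>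
    (((Finset.Icc 1 N ×ˢ Finset.Icc 1 N).image fun x : ℕ × ℕ => x.1 * x.2).card : ℝ) /
      (N : ℝ) ^ 2) atTop (𝓝 0) := by
  have h1 := tendsto_eps (h := Om) tendsto_Om (show (0 : ℝ) < 1 / 8 by norm_num)
  have hsq : Tendsto (fun N : ℕ => N ^ 2) atTop atTop := tendsto_pow_atTop two_ne_zero
  have h2 := (h1.comp hsq).add (h1.const_mul 2)
  rw [mul_zero, add_zero] at h2
  refine squeeze_zero' (Eventually.of_forall fun N => by positivity) ?_ h2
  filter_upwards [tendsto_LL.eventually_ge_atTop 8, eventually_ge_atTop 16] with N hL hN16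
  have hN0 : (0 : ℝ) < N := by exact_mod_cast (by omega : 0 < N)
  simp only [Function.comp_apply]
  set T := (Finset.Icc 1 N ×ˢ Finset.Icc 1 N).image fun x : ℕ × ℕ => x.1 * x.2 with hT
  set E := (Finset.Icc 1 N).filter fun n => 1 / 8 * LL N < |Om n - LL N| with hE
  set M := (Finset.Icc 1 (N ^ 2)).filter fun n => 1 / 8 * LL (N ^ 2) < |Om n - LL (N ^ 2)| with hM
  have hlN : 1 < Real.log N := by
    rw [Real.lt_log_iff_exp_lt hN0]
    have h16 : (16 : ℝ) ≤ N := by exact_mod_cast hN16
    have := Real.exp_one_lt_d9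
    linarith
  have hL2 : LL (N ^ 2) = Real.log 2 + LL N := by
    rw [LL, Nat.cast_pow, Real.log_pow, Nat.cast_ofNat,
      Real.log_mul (by norm_num) (by linarith), LL]
  have hlog2 := Real.log_two_lt_d9
  have hlog2' : 0 < Real.log 2 := Real.log_pos (by norm_num)
  have hsub : T ⊆ M ∪ ((E ×ˢ Finset.Icc 1 N).image (fun x : ℕ × ℕ => x.1 * x.2) ∪
      (Finset.Icc 1 N ×ˢ E).image fun x : ℕ × ℕ => x.1 * x.2) := by
    intro m hm
    obtain ⟨⟨a, b⟩, hab, rfl⟩ := Finset.mem_image.mp hm
    obtain ⟨ha, hb⟩ := Finset.mem_product.mp hab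
    simp only at ha hb ⊢
    rw [Finset.mem_union, Finset.mem_union]
    by_cases hEa : a ∈ E
    · right
      left
      exact Finset.mem_image.mpr ⟨(a, b), Finset.mem_product.mpr ⟨hEa, hb⟩, rfl⟩
    by_cases hEb : b ∈ E
    · right
      right
      exact Finset.mem_image.mpr ⟨(a, b), Finset.mem_product.mpr ⟨ha, hEb⟩, rfl⟩
    left
    have h3 : |Om a - LL N| ≤ 1 / 8 * LL N := by
      by_contra h
      exact hEa (Finset.mem_filter.mpr ⟨ha, not_le.mp h⟩)
    have h4 : |Om b - LL N| ≤ 1 / 8 * LL N := by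
      by_contra h
      exact hEb (Finset.mem_filter.mpr ⟨hb, not_le.mp h⟩)
    obtain ⟨ha1, ha2⟩ := Finset.mem_Icc.mp ha
    obtain ⟨hb1, hb2⟩ := Finset.mem_Icc.mp hb
    have h5 : Om (a * b) = Om a + Om b := by
      unfold Om
      rw [cardFactors_mul (by omega) (by omega), Nat.cast_add]
    refine Finset.mem_filter.mpr ⟨Finset.mem_Icc.mpr ⟨Nat.mul_pos ha1 hb1, ?_⟩, ?_⟩
    · rw [sq]
      exact Nat.mul_le_mul ha2 hb2
    · refine lt_of_lt_of_le ?_ (le_abs_self _)
      rw [h5, hL2]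
      have h6 := (abs_le.mp h3).1
      have h7 := (abs_le.mp h4).1
      linarith
  have hc1 : ((E ×ˢ Finset.Icc 1 N).image fun x : ℕ × ℕ => x.1 * x.2).card ≤ E.card * N := by
    refine Finset.card_image_le.trans ?_
    rw [Finset.card_product, Nat.card_Icc, Nat.add_sub_cancel]
  have hc2 : ((Finset.Icc 1 N ×ˢ E).image fun x : ℕ × ℕ => x.1 * x.2).card ≤ N * E.card := by
    refine Finset.card_image_le.trans ?_
    rw [Finset.card_product, Nat.card_Icc, Nat.add_sub_cancel]
  have h3 : T.card ≤ M.card + (E.card * N + N * E.card) :=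
    ((Finset.card_le_card hsub).trans (Finset.card_union_le _ _)).trans
      (Nat.add_le_add_left ((Finset.card_union_le _ _).trans (Nat.add_le_add hc1 hc2)) _)
  have h4 : (T.card : ℝ) ≤ M.card + (E.card * N + N * E.card) := by exact_mod_cast h3
  calc (T.card : ℝ) / (N : ℝ) ^ 2 ≤ (M.card + (E.card * N + N * E.card)) / (N : ℝ) ^ 2 := by
        gcongr
    _ = (M.card : ℝ) / ((N ^ 2 : ℕ) : ℝ) + 2 * (E.card / N) := by
      rw [Nat.cast_pow]
      field_simp
      ring

end Fermat.Agent.Cor.HR
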